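import Fermat.Agent.F4.Coind.HomSwap

/-!
# F4 / Coind / Prod : finite products of 2-term complexes, Shapiro for a product of coinductions
(helper13, seat COIND)

* `Cx.pi K` : the product of a family of complexes, `Cx.piProj`;
* `Cx.pi_smooth` (finite families);
* `coindPiCx r 𝓤 K = ∏ᵢ coInd_{rᵢ} Kᵢ`, `evPi` : the evaluation `(∏ coInd Kⱼ)|_{Dᵢ} → Kᵢ`;
* `shapiro1_pi`, `shapiro2_pi` : Shapiro's lemma for `∏ᵢ coInd_{rᵢ} Kᵢ` with coefficients.
-/

set_option autoImplicit false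

open CategoryTheory groupCohomology

namespace Fermat.Agent.F4

section Pi

variable {k G : Type} [CommRing k] [Group G] {ι : Type}

/-- The product of a family of representations. -/
def cxPiRepr (A : ι → Rep.{0} k G) : Representation k G (∀ i, A i) where
  toFun g := LinearMap.pi fun i => (A i).ρ g ∘ₗ LinearMap.proj i
  map_one' := by
    refine LinearMap.ext fun x => funext fun i => ?_
    simp
  map_mul' g h := by
    refine LinearMap.ext fun x => funext fun i => ?_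
    simp

/-- The product of a family of representations, as a `Rep`. -/
abbrev cxPiRep (A : ι → Rep.{0} k G) : Rep.{0} k G := Rep.of (cxPiRepr A)

lemma cxPiRep_ρ_apply (A : ι → Rep.{0} k G) (g : G) (x : ∀ i, A i) (i : ι) :
    ((cxPiRep A).ρ g x : ∀ i, A i) i = (A i).ρ g (x i) := rfl

/-- The product of a family of 2-term complexes. -/
def Cx.pi (K : ι → Cx k G) : Cx k G where
  K0 := cxPiRep fun i => (K i).K0
  K1 := cxPiRep fun i => (K i).K1
  d := LinearMap.pi fun i => (K i).d ∘ₗ LinearMap.proj i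
  comm g x := funext fun i => (K i).comm g (x i)

/-- The projections of the product. -/
def Cx.piProj (K : ι → Cx k G) (i : ι) : CxHom (Cx.pi K) (K i) where
  f0 := LinearMap.proj i
  f1 := LinearMap.proj i
  comm0 _ _ := rfl
  comm1 _ _ := rfl
  commd _ := rfl

lemma Cx.pi_smooth [Finite ι] (𝓤 : Levels G) (K : ι → Cx k G) (hK : ∀ i, (K i).Smooth 𝓤) :
    (Cx.pi K).Smooth 𝓤 := by
  constructor
  · intro x
    obtain ⟨U, hU, h⟩ := 𝓤.coind_exists_le_of_finite (Set.univ : Set ι) Set.finite_univ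
      (fun i U => ∀ g ∈ U, (K i).K0.ρ g ((x : ∀ i, (K i).K0) i) = (x : ∀ i, (K i).K0) i)
      (fun i _ => (hK i).1 _) (fun _ _ _ hVU h g hg => h g (hVU hg))
    exact ⟨U, hU, fun g hg => funext fun i => h i (Set.mem_univ i) g hg⟩
  · intro x
    obtain ⟨U, hU, h⟩ := 𝓤.coind_exists_le_of_finite (Set.univ : Set ι) Set.finite_univ
      (fun i U => ∀ g ∈ U, (K i).K1.ρ g ((x : ∀ i, (K i).K1) i) = (x : ∀ i, (K i).K1) i)
      (fun i _ => (hK i).2 _) (fun _ _ _ hVU h g hg => h g (hVU hg))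
    exact ⟨U, hU, fun g hg => funext fun i => h i (Set.mem_univ i) g hg⟩

variable (N : Rep.{0} k G) (K : ι → Cx k G)

/-- The projections are jointly injective on total 2-cochains of `Hom(N, ∏ K)`. -/
lemma pi_T2_ext {w w' : T2 (homCx N (Cx.pi K))}
    (h : ∀ i, (homCxPost N (Cx.piProj K i)).onT2 w = (homCxPost N (Cx.piProj K i)).onT2 w') :
    w = w' := by
  refine Prod.ext (funext fun p => LinearMap.ext fun n => funext fun i => ?_)
    (funext fun g => LinearMap.ext fun n => funext fun i => ?_)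
  · have := congrArg (fun f : N →ₗ[k] (K i).K0 => f n) (congrFun (congrArg Prod.fst (h i)) p)
    exact this
  · have := congrArg (fun f : N →ₗ[k] (K i).K1 => f n) (congrFun (congrArg Prod.snd (h i)) g)
    exact this

/-- Assemble a family of total 1-cochains. -/
def piT1 (z : ∀ i, T1 (homCx N (K i))) : T1 (homCx N (Cx.pi K)) :=
  (fun g => LinearMap.pi fun i => ((z i).1 g : N →ₗ[k] (K i).K0),
    LinearMap.pi fun i => ((z i).2 : N →ₗ[k] (K i).K1))

@[simp] lemma piProj_piT1 (z : ∀ i, T1 (homCx N (K i))) (i : ι) :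
    (homCxPost N (Cx.piProj K i)).onT1 (piT1 N K z) = z i := rfl

variable (𝓤 : Levels G)

/-- A family of level-constant cochains assembles to a level-constant cochain. -/
lemma isLC₁_of_proj [Finite ι] (a : G → (homCx N (Cx.pi K)).K0)
    (h : ∀ i, IsLC₁ 𝓤 (fun g => (homCxPost N (Cx.piProj K i)).f0 (a g))) : IsLC₁ 𝓤 a := by
  obtain ⟨U, hU, hU'⟩ := 𝓤.coind_exists_le_of_finite (Set.univ : Set ι) Set.finite_univ
    (fun i U => ∀ g s, s ∈ U →
      (homCxPost N (Cx.piProj K i)).f0 (a (g * s)) = (homCxPost N (Cx.piProj K i)).f0 (a g))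
    (fun i _ => h i) (fun _ _ _ hVU h g s hs => h g s (hVU hs))
  refine ⟨U, hU, fun g s hs => LinearMap.ext fun n => funext fun i => ?_⟩
  have := congrArg (fun f : N →ₗ[k] (K i).K0 => f n) (hU' i (Set.mem_univ i) g s hs)
  exact this

/-- Membership in `ZZ¹` of `Hom(N, ∏ K)` is tested on the factors. -/
lemma pi_mem_ZZ1 [Finite ι] (z : T1 (homCx N (Cx.pi K)))
    (h : ∀ i, (homCxPost N (Cx.piProj K i)).onT1 z ∈ ZZ1 𝓤 (homCx N (K i))) :
    z ∈ ZZ1 𝓤 (homCx N (Cx.pi K)) := by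
  refine Submodule.mem_inf.2 ⟨LinearMap.mem_ker.2 ?_, Submodule.mem_prod.2 ⟨?_, trivial⟩⟩
  · refine pi_T2_ext N K fun i => ?_
    rw [← CxHom.D1_onT1, map_zero]
    exact LinearMap.mem_ker.1 (Submodule.mem_inf.1 (h i)).1
  · exact isLC₁_of_proj N K 𝓤 z.1 fun i => (Submodule.mem_prod.1 (Submodule.mem_inf.1 (h i)).2).1

/-- Membership in `BB²` of `Hom(N, ∏ K)` is tested on the factors. -/
lemma pi_mem_BB2 [Finite ι] (z : T2 (homCx N (Cx.pi K)))
    (h : ∀ i, (homCxPost N (Cx.piProj K i)).onT2 z ∈ BB2 𝓤 (homCx N (K i))) :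
    z ∈ BB2 𝓤 (homCx N (Cx.pi K)) := by
  have h' := fun i => (mem_BB2_iff 𝓤 _ _).1 (h i)
  choose c hc hD using h'
  refine (mem_BB2_iff 𝓤 _ _).2 ⟨piT1 N K c, ?_, ?_⟩
  · exact isLC₁_of_proj N K 𝓤 _ fun i => hc i
  · refine pi_T2_ext N K fun i => ?_
    rw [← CxHom.D1_onT1, piProj_piT1]
    exact hD i

end Pi

/-! ### Products of coinductions -/

section CoindPi

variable {k G : Type} [Field k] [Group G] {ι : Type} {D : ι → Type} [∀ i, Group (D i)]
  (r : ∀ i, D i →* G) (𝓤 : Levels G) (K : ∀ i, Cx k (D i))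

/-- `∏ᵢ coInd_{rᵢ} Kᵢ`. -/
abbrev coindPiCx : Cx k G := Cx.pi fun i => (K i).coInd (r i) 𝓤

lemma coindPiCx_smooth [Finite ι] : (coindPiCx r 𝓤 K).Smooth 𝓤 :=
  Cx.pi_smooth 𝓤 _ fun i => Cx.coInd_smooth (r i) 𝓤 (K i)

/-- The `i`-th component of an element of `(∏ coInd K)⁰`, as a function. -/
def coindPiFun0 (x : (coindPiCx r 𝓤 K).K0) (i : ι) : G → (K i).K0 :=
  (K i).coIndFun0 (r i) 𝓤 ((show ∀ j, ((K j).coInd (r j) 𝓤).K0 from x) i)

/-- The `i`-th component of an element of `(∏ coInd K)¹`, as a function. -/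
def coindPiFun1 (x : (coindPiCx r 𝓤 K).K1) (i : ι) : G → (K i).K1 :=
  (K i).coIndFun1 (r i) 𝓤 ((show ∀ j, ((K j).coInd (r j) 𝓤).K1 from x) i)

/-- The evaluation `(∏ⱼ coInd Kⱼ)|_{Dᵢ} → Kᵢ`. -/
def evPi (i : ι) : CxHom ((coindPiCx r 𝓤 K).res (r i)) (K i) where
  f0 :=
    { toFun := fun x => coindPiFun0 r 𝓤 K x i 1
      map_add' := fun _ _ => rfl
      map_smul' := fun _ _ => rfl }
  f1 :=
    { toFun := fun x => coindPiFun1 r 𝓤 K x i 1
      map_add' := fun _ _ => rfl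
      map_smul' := fun _ _ => rfl }
  comm0 d x := (evCx (r i) 𝓤 (K i)).comm0 d ((show ∀ j, ((K j).coInd (r j) 𝓤).K0 from x) i)
  comm1 d x := (evCx (r i) 𝓤 (K i)).comm1 d ((show ∀ j, ((K j).coInd (r j) 𝓤).K1 from x) i)
  commd _ := rfl

variable (N : Rep.{0} k G)

/-- **Shapiro in degree 1 for `∏ coInd K`** (surjectivity, exact on cochains). -/
theorem shapiro1_pi [Finite ι] (hK : ∀ i, (K i).Smooth (𝓤.comap (r i))) (hN : IsSmooth 𝓤 N)
    [hfin : Module.Finite k N] (c : ∀ i, T1 (homCx (Rep.res (r i) N) (K i)))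
    (hc : ∀ i, c i ∈ ZZ1 (𝓤.comap (r i)) (homCx (Rep.res (r i) N) (K i))) :
    ∃ z : T1 (homCx N (coindPiCx r 𝓤 K)), z ∈ ZZ1 𝓤 (homCx N (coindPiCx r 𝓤 K)) ∧
      ∀ i, (homCxPost (Rep.res (r i) N) (evPi r 𝓤 K i)).onT1
        (resHomT1 (r i) N (coindPiCx r 𝓤 K) z) = c i := by
  have h := fun i => shapiro1_hom (r i) 𝓤 (K i) N (hK i) hN (c i) (hc i)
  choose z hz hev using h
  refine ⟨piT1 N (fun i => (K i).coInd (r i) 𝓤) z,
    pi_mem_ZZ1 N (fun i => (K i).coInd (r i) 𝓤) 𝓤 _ fun i => ?_, fun i => ?_⟩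
  · rw [piProj_piT1]
    exact hz i
  · rw [← hev i]
    rfl

/-- **Shapiro in degree 2 for `∏ coInd K`** (injectivity, on cochains). -/
theorem shapiro2_pi [Finite ι] (hK : ∀ i, (K i).Smooth (𝓤.comap (r i))) (hN : IsSmooth 𝓤 N)
    [hfin : Module.Finite k N] (z : T2 (homCx N (coindPiCx r 𝓤 K)))
    (hz : z ∈ ZZ2 𝓤 (homCx N (coindPiCx r 𝓤 K)))
    (h : ∀ i, (homCxPost (Rep.res (r i) N) (evPi r 𝓤 K i)).onT2
        (resHomT2 (r i) N (coindPiCx r 𝓤 K) z)
      ∈ BB2 (𝓤.comap (r i)) (homCx (Rep.res (r i) N) (K i))) :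
    z ∈ BB2 𝓤 (homCx N (coindPiCx r 𝓤 K)) := by
  refine pi_mem_BB2 N (fun i => (K i).coInd (r i) 𝓤) 𝓤 z fun i => ?_
  refine shapiro2_hom (r i) 𝓤 (K i) N (hK i) hN _
    (CxHom.onT2_mem_ZZ2 (homCxPost N (Cx.piProj (fun i => (K i).coInd (r i) 𝓤) i)) 𝓤 hz) ?_
  exact h i

end CoindPi

end Fermat.Agent.F4
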