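import Fermat.Agent.F4.Coind.Prod

/-!
# F4 / Coind / Quot : the quotient of a 2-term complex by a module in degree 0
(helper13, seat COIND)

For `f : A[0] → K` the complex `K / A = [K⁰ / f(A) → K¹]`, the quotient map, and the termwise
short exact sequence `0 → A[0] → K → K / A → 0` (for `f` injective).
-/

set_option autoImplicit false

open CategoryTheory groupCohomology

namespace Fermat.Agent.F4

variable {k G : Type} [CommRing k] [Group G]

section Quot

variable (K : Cx k G) {A : Rep.{0} k G} (f : CxHom (Cx.deg0 A) K)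

lemma cxQuot_le_comap (g : G) :
    LinearMap.range f.f0 ≤ (LinearMap.range f.f0).comap (K.K0.ρ g) := by
  rintro _ ⟨x, rfl⟩
  exact ⟨A.ρ g x, f.comm0 g x⟩

lemma cxQuot_le_ker : LinearMap.range f.f0 ≤ LinearMap.ker K.d := by
  rintro _ ⟨x, rfl⟩
  rw [LinearMap.mem_ker, ← f.commd x]
  exact map_zero f.f1

/-- The quotient complex `[K⁰ / f(A) → K¹]`. -/
def Cx.quot0 : Cx k G where
  K0 := Rep.of (K.K0.ρ.quotient (LinearMap.range f.f0) (cxQuot_le_comap K f))
  K1 := K.K1
  d := (LinearMap.range f.f0).liftQ K.d (cxQuot_le_ker K f)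
  comm g x := by
    induction x using Submodule.Quotient.induction_on with
    | H x => exact K.comm g x

/-- The quotient map `K → K / A`. -/
def Cx.quot0Map : CxHom K (K.quot0 f) where
  f0 := (LinearMap.range f.f0).mkQ
  f1 := LinearMap.id
  comm0 _ _ := rfl
  comm1 _ _ := rfl
  commd _ := rfl

/-- `0 → A[0] → K → K / A → 0` is termwise exact. -/
theorem Cx.quot0_exact (hinj : Function.Injective f.f0) : CxShortExact f (K.quot0Map f) where
  inj0 := hinj
  inj1 := fun x y _ => Subsingleton.elim (α := PUnit) x y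
  surj0 := Submodule.mkQ_surjective _
  surj1 := fun x => ⟨x, rfl⟩
  exact0 := fun x => by
    show (LinearMap.range f.f0).mkQ x = 0 ↔ _
    rw [Submodule.mkQ_apply, Submodule.Quotient.mk_eq_zero, LinearMap.mem_range]
  exact1 := fun x => by
    show x = 0 ↔ _
    constructor
    · rintro rfl
      exact ⟨0, map_zero f.f1⟩
    · rintro ⟨y, rfl⟩
      have : y = 0 := Subsingleton.elim (α := PUnit) y 0
      rw [this, map_zero]

lemma Cx.quot0_smooth (𝓤 : Levels G) (hK : K.Smooth 𝓤) : (K.quot0 f).Smooth 𝓤 := by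
  refine ⟨fun x => ?_, hK.2⟩
  induction x using Submodule.Quotient.induction_on with
  | H x =>
    obtain ⟨U, hU, h⟩ := hK.1 x
    refine ⟨U, hU, fun g hg => ?_⟩
    show Submodule.Quotient.mk (K.K0.ρ g x) = Submodule.Quotient.mk x
    rw [h g hg]

end Quot

end Fermat.Agent.F4
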