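import Fermat.Agent.F4.Duality

/-!
# F4 / Coind / Basic : smooth coinduction along `r : D →* G` (helper13, seat COIND)

For a level structure `𝓤` on `G`, a homomorphism `r : D →* G` and a `k[D]`-module `A`:

* `coIndSub r 𝓤 A` : the functions `φ : G → A` with `φ (r d * x) = d • φ x`, right-invariant under
  some member of `𝓤`;
* `coInd r 𝓤 A : Rep k G` : this module with the action `(g • φ) x = φ (x * g)`;
* `coIndMap` : functoriality in `A`; `Cx.coInd` : coinduction of a 2-term complex;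
* `evCx` : the evaluation `φ ↦ φ 1`, a morphism `(coInd K)|_D → K`;
* uniform levels: a level-constant cochain with values in a smooth module is invariant under, and
  has all its values fixed by, a single member of `𝓤`.
-/

set_option autoImplicit false

open CategoryTheory groupCohomology

namespace Fermat.Agent.F4

variable {k D G : Type} [CommRing k] [Group D] [Group G]

/-! ### Uniform levels -/

section Uniform

variable (𝓤 : Levels G)

lemma Levels.coind_conj_mem {U : Subgroup G} (hU : U ∈ 𝓤.sets) {s : G} (hs : s ∈ U) (g : G) :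
    g * s * g⁻¹ ∈ U :=
  (𝓤.normal U hU).conj_mem s hs g

lemma Levels.coind_conj_mem' {U : Subgroup G} (hU : U ∈ 𝓤.sets) {s : G} (hs : s ∈ U) (g : G) :
    g⁻¹ * s * g ∈ U := by
  have := (𝓤.normal U hU).conj_mem s hs g⁻¹
  simpa using this

/-- Finitely many members of `𝓤` have a common lower bound in `𝓤`. -/
lemma Levels.coind_exists_le_of_finite {ι : Type*} (s : Set ι) (hs : s.Finite) (P : ι → Subgroup G → Prop)
    (hP : ∀ i ∈ s, ∃ U ∈ 𝓤.sets, P i U) (hmono : ∀ i U V, V ≤ U → P i U → P i V) :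
    ∃ U ∈ 𝓤.sets, ∀ i ∈ s, P i U := by
  classical
  induction s, hs using Set.Finite.induction_on with
  | empty =>
    obtain ⟨U, hU⟩ := 𝓤.nonempty
    exact ⟨U, hU, fun _ h => absurd h (Set.notMem_empty _)⟩
  | @insert a t _ _ ih =>
    obtain ⟨V, hV, hVt⟩ := ih (fun i hi => hP i (Set.mem_insert_of_mem _ hi))
    obtain ⟨U, hU, hUa⟩ := hP a (Set.mem_insert _ _)
    obtain ⟨W, hW, hWle⟩ := 𝓤.directed U hU V hV
    refine ⟨W, hW, fun i hi => ?_⟩
    rcases hi with rfl | hi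
    · exact hmono _ U W (hWle.trans inf_le_left) hUa
    · exact hmono _ V W (hWle.trans inf_le_right) (hVt i hi)

/-- A level-constant function has finitely many values. -/
lemma IsLC₁.coind_finite_range {X : Type*} {f : G → X} (hf : IsLC₁ 𝓤 f) : (Set.range f).Finite := by
  obtain ⟨U, hU, h⟩ := hf
  have hfi := 𝓤.finiteIndex U hU
  have : Finite (G ⧸ U) := Subgroup.finite_quotient_of_finiteIndex
  let f' : G ⧸ U → X := Quotient.lift f (by
    intro a b hab
    have hab' : a⁻¹ * b ∈ U := QuotientGroup.leftRel_apply.1 hab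
    have := h a (a⁻¹ * b) hab'
    rw [mul_inv_cancel_left] at this
    exact this.symm)
  refine (Set.finite_range f').subset ?_
  rintro _ ⟨g, rfl⟩
  exact ⟨(g : G ⧸ U), rfl⟩

/-- A level-constant function of two variables has finitely many values. -/
lemma IsLC₂.coind_finite_range {X : Type*} {f : G × G → X} (hf : IsLC₂ 𝓤 f) :
    (Set.range f).Finite := by
  obtain ⟨U, hU, h⟩ := hf
  have hfi := 𝓤.finiteIndex U hU
  have : Finite (G ⧸ U) := Subgroup.finite_quotient_of_finiteIndex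
  let f' : (G ⧸ U) × (G ⧸ U) → X := fun q =>
    Quotient.lift₂ (fun a b => f (a, b)) (by
      intro a b a' b' haa' hbb'
      have ha : a⁻¹ * a' ∈ U := QuotientGroup.leftRel_apply.1 haa'
      have hb : b⁻¹ * b' ∈ U := QuotientGroup.leftRel_apply.1 hbb'
      have := h a b (a⁻¹ * a') (b⁻¹ * b') ha hb
      rw [mul_inv_cancel_left, mul_inv_cancel_left] at this
      exact this.symm) q.1 q.2
  refine (Set.finite_range f').subset ?_
  rintro _ ⟨g, rfl⟩
  exact ⟨((g.1 : G ⧸ U), (g.2 : G ⧸ U)), rfl⟩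

variable {𝓤}

/-- Finitely many elements of a smooth module are fixed by a common member of `𝓤`. -/
lemma IsSmooth.coind_exists_level_of_finite {A : Rep.{0} k G} (hA : IsSmooth 𝓤 A) (t : Set A)
    (ht : t.Finite) : ∃ U ∈ 𝓤.sets, ∀ a ∈ t, ∀ g ∈ U, A.ρ g a = a :=
  𝓤.coind_exists_le_of_finite t ht (fun a U => ∀ g ∈ U, A.ρ g a = a) (fun a _ => hA a)
    (fun _ _ _ hVU h g hg => h g (hVU hg))

/-- **Uniform level**, one variable: a level-constant cochain with values in a smooth module is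
invariant under a member of `𝓤` which fixes all its values. -/
lemma IsLC₁.coind_exists_uniform {A : Rep.{0} k G} (hA : IsSmooth 𝓤 A) {f : G → A} (hf : IsLC₁ 𝓤 f) :
    ∃ U ∈ 𝓤.sets, (∀ g s, s ∈ U → f (g * s) = f g) ∧ ∀ g, ∀ s ∈ U, A.ρ s (f g) = f g := by
  obtain ⟨V, hV, hVt⟩ := hA.coind_exists_level_of_finite _ hf.coind_finite_range
  obtain ⟨U, hU, h⟩ := hf
  obtain ⟨W, hW, hWle⟩ := 𝓤.directed U hU V hV
  exact ⟨W, hW, fun g s hs => h g s (hWle hs).1, fun g s hs => hVt _ ⟨g, rfl⟩ s (hWle hs).2⟩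

/-- **Uniform level**, two variables. -/
lemma IsLC₂.coind_exists_uniform {A : Rep.{0} k G} (hA : IsSmooth 𝓤 A) {f : G × G → A}
    (hf : IsLC₂ 𝓤 f) :
    ∃ U ∈ 𝓤.sets, (∀ g g' s s', s ∈ U → s' ∈ U → f (g * s, g' * s') = f (g, g')) ∧
      ∀ p, ∀ s ∈ U, A.ρ s (f p) = f p := by
  obtain ⟨V, hV, hVt⟩ := hA.coind_exists_level_of_finite _ hf.coind_finite_range
  obtain ⟨U, hU, h⟩ := hf
  obtain ⟨W, hW, hWle⟩ := 𝓤.directed U hU V hV
  exact ⟨W, hW, fun g g' s s' hs hs' => h g g' s s' (hWle hs).1 (hWle hs').1,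
    fun p s hs => hVt _ ⟨p, rfl⟩ s (hWle hs).2⟩

end Uniform

/-! ### The coinduced module -/

section Coind

variable (r : D →* G) (𝓤 : Levels G)

/-- The smooth coinduced functions: `φ (r d * x) = d • φ x`, right-invariant under a level. -/
def coIndSub (A : Rep.{0} k D) : Submodule k (G → A) where
  carrier := {φ | (∀ d x, φ (r d * x) = A.ρ d (φ x)) ∧ IsLC₁ 𝓤 φ}
  add_mem' := by
    rintro φ ψ ⟨h1, h2⟩ ⟨h1', h2'⟩
    refine ⟨fun d x => ?_, h2.add h2'⟩
    simp only [Pi.add_apply, h1, h1', map_add]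
  zero_mem' := ⟨fun d x => by simp, isLC₁_const 𝓤 (0 : A)⟩
  smul_mem' := by
    rintro c φ ⟨h1, h2⟩
    refine ⟨fun d x => ?_, h2.comp (c • ·)⟩
    simp only [Pi.smul_apply, h1, map_smul]

variable {r 𝓤}

lemma mem_coIndSub_iff {A : Rep.{0} k D} (φ : G → A) :
    φ ∈ coIndSub r 𝓤 A ↔ (∀ d x, φ (r d * x) = A.ρ d (φ x)) ∧ IsLC₁ 𝓤 φ := Iff.rfl

lemma coIndSub_equivariant {A : Rep.{0} k D} (φ : ↥(coIndSub r 𝓤 A)) (d : D) (x : G) :
    (φ : G → A) (r d * x) = A.ρ d ((φ : G → A) x) := φ.2.1 d x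

lemma coIndSub_isLC {A : Rep.{0} k D} (φ : ↥(coIndSub r 𝓤 A)) : IsLC₁ 𝓤 (φ : G → A) := φ.2.2

/-- Right translation preserves level-constancy (levels are normal). -/
lemma IsLC₁.coind_comp_mul_right {X : Type*} {f : G → X} (hf : IsLC₁ 𝓤 f) (g : G) :
    IsLC₁ 𝓤 (fun x => f (x * g)) := by
  obtain ⟨U, hU, h⟩ := hf
  refine ⟨U, hU, fun x s hs => ?_⟩
  have : x * s * g = x * g * (g⁻¹ * s * g) := by group
  show f (x * s * g) = f (x * g)
  rw [this]
  exact h _ _ (𝓤.coind_conj_mem' hU hs g)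

variable (r 𝓤)

/-- The action of `G` on the coinduced module: `(g • φ) x = φ (x * g)`. -/
def coIndRepr (A : Rep.{0} k D) : Representation k G ↥(coIndSub r 𝓤 A) where
  toFun g :=
    { toFun := fun φ => ⟨fun x => (φ : G → A) (x * g), by
        refine ⟨fun d x => ?_, (coIndSub_isLC φ).coind_comp_mul_right g⟩
        show (φ : G → A) (r d * x * g) = _
        rw [mul_assoc]
        exact coIndSub_equivariant φ d (x * g)⟩
      map_add' := fun _ _ => rfl
      map_smul' := fun _ _ => rfl }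
  map_one' := by
    refine LinearMap.ext fun φ => Subtype.ext (funext fun x => ?_)
    show (φ : G → A) (x * 1) = (φ : G → A) x
    rw [mul_one]
  map_mul' g h := by
    refine LinearMap.ext fun φ => Subtype.ext (funext fun x => ?_)
    show (φ : G → A) (x * (g * h)) = (φ : G → A) (x * g * h)
    rw [mul_assoc]

/-- The smooth coinduced module `coInd_r A`. -/
abbrev coInd (A : Rep.{0} k D) : Rep.{0} k G := Rep.of (coIndRepr r 𝓤 A)

variable {r 𝓤}

lemma coInd_ρ_apply {A : Rep.{0} k D} (g : G) (φ : ↥(coIndSub r 𝓤 A)) (x : G) :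
    (((coInd r 𝓤 A).ρ g φ : ↥(coIndSub r 𝓤 A)) : G → A) x = (φ : G → A) (x * g) := rfl

/-- The coinduced module is smooth. -/
lemma coInd_smooth (A : Rep.{0} k D) : IsSmooth 𝓤 (coInd r 𝓤 A) := by
  intro φ
  obtain ⟨U, hU, h⟩ := coIndSub_isLC (r := r) (𝓤 := 𝓤) (A := A) φ
  refine ⟨U, hU, fun g hg => Subtype.ext (funext fun x => ?_)⟩
  exact h x g hg

/-- The values of a coinduced function are fixed by the preimage of its level. -/
lemma coIndSub_value_fixed {A : Rep.{0} k D} (φ : ↥(coIndSub r 𝓤 A)) {U : Subgroup G}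
    (hU : U ∈ 𝓤.sets) (h : ∀ x s, s ∈ U → (φ : G → A) (x * s) = (φ : G → A) x) (x : G) {d : D}
    (hd : r d ∈ U) : A.ρ d ((φ : G → A) x) = (φ : G → A) x := by
  rw [← coIndSub_equivariant φ d x]
  have : r d * x = x * (x⁻¹ * r d * x) := by group
  rw [this]
  exact h _ _ (𝓤.coind_conj_mem' hU hd x)

/-- Functoriality of coinduction in the module. -/
def coIndMap {A B : Rep.{0} k D} (u : A →ₗ[k] B) (hu : ∀ (d : D) (a : A), u (A.ρ d a) = B.ρ d (u a)) :
    ↥(coIndSub r 𝓤 A) →ₗ[k] ↥(coIndSub r 𝓤 B) where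
  toFun φ := ⟨fun x => u ((φ : G → A) x), by
    refine ⟨fun d x => ?_, (coIndSub_isLC φ).comp u⟩
    show u ((φ : G → A) (r d * x)) = _
    rw [coIndSub_equivariant, hu]⟩
  map_add' φ ψ := Subtype.ext (funext fun x => by
    show u ((φ : G → A) x + (ψ : G → A) x) = _
    rw [map_add]; rfl)
  map_smul' c φ := Subtype.ext (funext fun x => by
    show u (c • (φ : G → A) x) = _
    rw [map_smul]; rfl)

@[simp] lemma coIndMap_apply {A B : Rep.{0} k D} (u : A →ₗ[k] B)
    (hu : ∀ (d : D) (a : A), u (A.ρ d a) = B.ρ d (u a)) (φ : ↥(coIndSub r 𝓤 A)) (x : G) :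
    ((coIndMap (r := r) (𝓤 := 𝓤) u hu φ : ↥(coIndSub r 𝓤 B)) : G → B) x = u ((φ : G → A) x) := rfl

variable (r 𝓤)

/-- Coinduction of a 2-term complex. -/
def Cx.coInd (K : Cx k D) : Cx k G where
  K0 := Fermat.Agent.F4.coInd r 𝓤 K.K0
  K1 := Fermat.Agent.F4.coInd r 𝓤 K.K1
  d := coIndMap K.d K.comm
  comm _ _ := rfl

/-- The underlying function of an element of `(coInd K)⁰`. -/
def Cx.coIndFun0 (K : Cx k D) (φ : (K.coInd r 𝓤).K0) : G → K.K0 :=
  ((show ↥(coIndSub r 𝓤 K.K0) from φ) : G → K.K0)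

/-- The underlying function of an element of `(coInd K)¹`. -/
def Cx.coIndFun1 (K : Cx k D) (φ : (K.coInd r 𝓤).K1) : G → K.K1 :=
  ((show ↥(coIndSub r 𝓤 K.K1) from φ) : G → K.K1)

/-- The evaluation at `1`, a morphism of complexes of `D`-modules `(coInd K)|_D → K`. -/
def evCx (K : Cx k D) : CxHom ((K.coInd r 𝓤).res r) K where
  f0 :=
    { toFun := fun φ => K.coIndFun0 r 𝓤 φ 1
      map_add' := fun _ _ => rfl
      map_smul' := fun _ _ => rfl }
  f1 :=
    { toFun := fun φ => K.coIndFun1 r 𝓤 φ 1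
      map_add' := fun _ _ => rfl
      map_smul' := fun _ _ => rfl }
  comm0 d φ := by
    show K.coIndFun0 r 𝓤 φ (1 * r d) = _
    rw [one_mul, ← mul_one (r d)]
    exact coIndSub_equivariant (show ↥(coIndSub r 𝓤 K.K0) from φ) d 1
  comm1 d φ := by
    show K.coIndFun1 r 𝓤 φ (1 * r d) = _
    rw [one_mul, ← mul_one (r d)]
    exact coIndSub_equivariant (show ↥(coIndSub r 𝓤 K.K1) from φ) d 1
  commd _ := rfl

@[simp] lemma evCx_f0_apply (K : Cx k D) (φ : ↥(coIndSub r 𝓤 K.K0)) :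
    (evCx r 𝓤 K).f0 φ = (φ : G → K.K0) 1 := rfl

@[simp] lemma evCx_f1_apply (K : Cx k D) (φ : ↥(coIndSub r 𝓤 K.K1)) :
    (evCx r 𝓤 K).f1 φ = (φ : G → K.K1) 1 := rfl

lemma Cx.coInd_smooth (K : Cx k D) : (K.coInd r 𝓤).Smooth 𝓤 :=
  ⟨Fermat.Agent.F4.coInd_smooth K.K0, Fermat.Agent.F4.coInd_smooth K.K1⟩

end Coind

end Fermat.Agent.F4
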