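import Fermat.Agent.F4.Coind.Shapiro2
import Fermat.Agent.F4.DDT.Basic

/-!
# F4 / Coind / HomSwap : `Hom(N, coInd K) ≅ coInd Hom(N|_D, K)` and Shapiro with coefficients
(helper13, seat COIND)

For a smooth `k[G]`-module `N`:
* `swapTo` : `coInd Hom(N|_D, A) → Hom(N, coInd A)`, `Ψ ↦ (n ↦ (x ↦ Ψ x (x • n)))`;
* `swapFrom` (`N` finite) : `Hom(N, coInd A) → coInd Hom(N|_D, A)`, `Φ ↦ (x ↦ (n ↦ Φ (x⁻¹ • n) x))`;
* `shapiro1_hom`, `shapiro2_hom` : Shapiro's lemma in degree 1 (surjectivity) and in degree 2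
  (injectivity) for the complexes `Hom(N, coInd K)` and `Hom(N|_D, K)`, on cochains.
-/

set_option autoImplicit false

open CategoryTheory groupCohomology

namespace Fermat.Agent.F4

variable {k D G : Type} [Field k] [Group D] [Group G]

section Swap

variable (r : D →* G) (𝓤 : Levels G) (N : Rep.{0} k G)

/-- The restriction of a smooth module is smooth for the pulled back levels. -/
lemma coind_isSmooth_res (hN : IsSmooth 𝓤 N) : IsSmooth (𝓤.comap r) (Rep.res r N) := by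
  intro n
  obtain ⟨U, hU, h⟩ := hN n
  exact ⟨U.comap r, ⟨U, hU, rfl⟩, fun d hd => h (r d) hd⟩

lemma coind_res_ρ_apply (d : D) (n : N) : (Rep.res r N).ρ d n = N.ρ (r d) n := rfl

variable {N}

/-- `Ψ ↦ (n ↦ (x ↦ Ψ x (x • n)))`. -/
def swapTo (hN : IsSmooth 𝓤 N) (A : Rep.{0} k D) :
    ↥(coIndSub r 𝓤 (homRep (Rep.res r N) A)) →ₗ[k] (N →ₗ[k] ↥(coIndSub r 𝓤 A)) where
  toFun Ψ :=
    { toFun := fun n => ⟨fun x => ((Ψ : G → (homRep (Rep.res r N) A)) x : N →ₗ[k] A) (N.ρ x n), by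
        refine ⟨fun d x => ?_, ?_⟩
        · show ((Ψ : G → (homRep (Rep.res r N) A)) (r d * x) : N →ₗ[k] A) (N.ρ (r d * x) n) = _
          rw [coIndSub_equivariant Ψ d x, homRep_ρ_apply, coind_res_ρ_apply, map_mul,
            Module.End.mul_apply, ← Module.End.mul_apply (N.ρ (r d⁻¹)), ← map_mul, ← map_mul,
            inv_mul_cancel, map_one, map_one, Module.End.one_apply]
        · obtain ⟨U, hU, h⟩ := coIndSub_isLC Ψ
          obtain ⟨V, hV, h'⟩ := hN n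
          obtain ⟨W, hW, hWle⟩ := 𝓤.directed U hU V hV
          refine ⟨W, hW, fun x s hs => ?_⟩
          show ((Ψ : G → (homRep (Rep.res r N) A)) (x * s) : N →ₗ[k] A) (N.ρ (x * s) n) = _
          rw [h x s (hWle hs).1, map_mul, Module.End.mul_apply, h' s (hWle hs).2]⟩
      map_add' := fun n n' => Subtype.ext (funext fun x => by
        show ((Ψ : G → (homRep (Rep.res r N) A)) x : N →ₗ[k] A) (N.ρ x (n + n')) = _
        rw [map_add, map_add]; rfl)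
      map_smul' := fun c n => Subtype.ext (funext fun x => by
        show ((Ψ : G → (homRep (Rep.res r N) A)) x : N →ₗ[k] A) (N.ρ x (c • n)) = _
        rw [map_smul, map_smul]; rfl) }
  map_add' _ _ := rfl
  map_smul' _ _ := rfl

@[simp] lemma swapTo_apply (hN : IsSmooth 𝓤 N) (A : Rep.{0} k D)
    (Ψ : ↥(coIndSub r 𝓤 (homRep (Rep.res r N) A))) (n : N) (x : G) :
    ((swapTo r 𝓤 hN A Ψ n : ↥(coIndSub r 𝓤 A)) : G → A) x
      = ((Ψ : G → (homRep (Rep.res r N) A)) x : N →ₗ[k] A) (N.ρ x n) := rfl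

/-- A finitely generated family of coinduced functions has a common level. -/
lemma exists_level_linearMap [Module.Finite k N] (A : Rep.{0} k D)
    (Φ : N →ₗ[k] ↥(coIndSub r 𝓤 A)) :
    ∃ U ∈ 𝓤.sets, ∀ (n : N) (x s : G), s ∈ U → (Φ n : G → A) (x * s) = (Φ n : G → A) x := by
  classical
  obtain ⟨t, ht⟩ := (Module.finite_def (R := k) (M := N)).1 inferInstance
  obtain ⟨U, hU, h⟩ := 𝓤.coind_exists_le_of_finite (t : Set N) t.finite_toSet
    (fun n U => ∀ x s : G, s ∈ U → (Φ n : G → A) (x * s) = (Φ n : G → A) x)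
    (fun n _ => coIndSub_isLC (Φ n)) (fun _ _ _ hVU h x s hs => h x s (hVU hs))
  refine ⟨U, hU, fun n x s hs => ?_⟩
  have hn : n ∈ Submodule.span k (t : Set N) := by rw [ht]; trivial
  induction hn using Submodule.span_induction with
  | mem y hy => exact h y hy x s hs
  | zero => simp
  | add y z _ _ hy hz =>
    rw [map_add]
    show (Φ y : G → A) (x * s) + (Φ z : G → A) (x * s) = (Φ y : G → A) x + (Φ z : G → A) x
    rw [hy, hz]
  | smul c y _ hy =>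
    rw [map_smul]
    show c • (Φ y : G → A) (x * s) = c • (Φ y : G → A) x
    rw [hy]

/-- `Φ ↦ (x ↦ (n ↦ Φ (x⁻¹ • n) x))`. -/
def swapFrom (hN : IsSmooth 𝓤 N) [Module.Finite k N] (A : Rep.{0} k D) :
    (N →ₗ[k] ↥(coIndSub r 𝓤 A)) →ₗ[k] ↥(coIndSub r 𝓤 (homRep (Rep.res r N) A)) where
  toFun Φ := ⟨fun x =>
      ({ toFun := fun n => (Φ (N.ρ x⁻¹ n) : G → A) x
         map_add' := fun n n' => by rw [map_add, map_add]; rfl
         map_smul' := fun c n => by rw [map_smul, map_smul]; rfl } : N →ₗ[k] A), by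
    refine ⟨fun d x => LinearMap.ext fun n => ?_, ?_⟩
    · show (Φ (N.ρ (r d * x)⁻¹ n) : G → A) (r d * x) = A.ρ d ((Φ (N.ρ x⁻¹ (N.ρ (r d⁻¹) n)) : G → A) x)
      have e : (r d * x)⁻¹ = x⁻¹ * r d⁻¹ := by rw [mul_inv_rev, map_inv]
      rw [coIndSub_equivariant, e, map_mul, Module.End.mul_apply]
    · obtain ⟨U, hU, h⟩ := exists_level_linearMap r 𝓤 A Φ
      obtain ⟨V, hV, h'⟩ := exists_level_fixing 𝓤 N hN
      obtain ⟨W, hW, hWle⟩ := 𝓤.directed U hU V hV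
      refine ⟨W, hW, fun x s hs => LinearMap.ext fun n => ?_⟩
      show (Φ (N.ρ (x * s)⁻¹ n) : G → A) (x * s) = (Φ (N.ρ x⁻¹ n) : G → A) x
      rw [h _ x s (hWle hs).1, mul_inv_rev, map_mul, Module.End.mul_apply,
        h' s⁻¹ (V.inv_mem (hWle hs).2)]⟩
  map_add' _ _ := rfl
  map_smul' _ _ := rfl

@[simp] lemma swapFrom_apply (hN : IsSmooth 𝓤 N) [Module.Finite k N] (A : Rep.{0} k D)
    (Φ : N →ₗ[k] ↥(coIndSub r 𝓤 A)) (x : G) (n : N) :
    (((swapFrom r 𝓤 hN A Φ : ↥(coIndSub r 𝓤 (homRep (Rep.res r N) A))) :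
      G → (homRep (Rep.res r N) A)) x : N →ₗ[k] A) n = (Φ (N.ρ x⁻¹ n) : G → A) x := rfl

lemma swapTo_swapFrom (hN : IsSmooth 𝓤 N) [Module.Finite k N] (A : Rep.{0} k D)
    (Φ : N →ₗ[k] ↥(coIndSub r 𝓤 A)) : swapTo r 𝓤 hN A (swapFrom r 𝓤 hN A Φ) = Φ := by
  refine LinearMap.ext fun n => Subtype.ext (funext fun x => ?_)
  rw [swapTo_apply, swapFrom_apply, ← Module.End.mul_apply, ← map_mul, inv_mul_cancel, map_one,
    Module.End.one_apply]

/-- `swapTo` as a morphism of complexes of `G`-modules. -/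
def swapToCx (hN : IsSmooth 𝓤 N) (K : Cx k D) :
    CxHom ((homCx (Rep.res r N) K).coInd r 𝓤) (homCx N (K.coInd r 𝓤)) where
  f0 := swapTo r 𝓤 hN K.K0
  f1 := swapTo r 𝓤 hN K.K1
  comm0 g Ψ := by
    refine LinearMap.ext fun n => Subtype.ext (funext fun x => ?_)
    show ((homCx (Rep.res r N) K).coIndFun0 r 𝓤 Ψ (x * g) : N →ₗ[k] K.K0) (N.ρ x n)
      = ((homCx (Rep.res r N) K).coIndFun0 r 𝓤 Ψ (x * g) : N →ₗ[k] K.K0)
        (N.ρ (x * g) (N.ρ g⁻¹ n))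
    rw [← Module.End.mul_apply, ← map_mul, mul_assoc, mul_inv_cancel, mul_one]
  comm1 g Ψ := by
    refine LinearMap.ext fun n => Subtype.ext (funext fun x => ?_)
    show ((homCx (Rep.res r N) K).coIndFun1 r 𝓤 Ψ (x * g) : N →ₗ[k] K.K1) (N.ρ x n)
      = ((homCx (Rep.res r N) K).coIndFun1 r 𝓤 Ψ (x * g) : N →ₗ[k] K.K1)
        (N.ρ (x * g) (N.ρ g⁻¹ n))
    rw [← Module.End.mul_apply, ← map_mul, mul_assoc, mul_inv_cancel, mul_one]
  commd _ := rfl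

/-- `swapFrom` as a morphism of complexes of `G`-modules. -/
def swapFromCx (hN : IsSmooth 𝓤 N) [Module.Finite k N] (K : Cx k D) :
    CxHom (homCx N (K.coInd r 𝓤)) ((homCx (Rep.res r N) K).coInd r 𝓤) where
  f0 := swapFrom r 𝓤 hN K.K0
  f1 := swapFrom r 𝓤 hN K.K1
  comm0 g Φ := by
    refine Subtype.ext (funext fun x => LinearMap.ext fun n => ?_)
    show K.coIndFun0 r 𝓤 ((Φ : N →ₗ[k] (K.coInd r 𝓤).K0) (N.ρ g⁻¹ (N.ρ x⁻¹ n))) (x * g)
      = K.coIndFun0 r 𝓤 ((Φ : N →ₗ[k] (K.coInd r 𝓤).K0) (N.ρ (x * g)⁻¹ n)) (x * g)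
    rw [mul_inv_rev, map_mul, Module.End.mul_apply]
  comm1 g Φ := by
    refine Subtype.ext (funext fun x => LinearMap.ext fun n => ?_)
    show K.coIndFun1 r 𝓤 ((Φ : N →ₗ[k] (K.coInd r 𝓤).K1) (N.ρ g⁻¹ (N.ρ x⁻¹ n))) (x * g)
      = K.coIndFun1 r 𝓤 ((Φ : N →ₗ[k] (K.coInd r 𝓤).K1) (N.ρ (x * g)⁻¹ n)) (x * g)
    rw [mul_inv_rev, map_mul, Module.End.mul_apply]
  commd _ := rfl

end Swap

/-! ### Shapiro with coefficients -/

section ShapiroHom

variable (r : D →* G) (𝓤 : Levels G) (K : Cx k D) (N : Rep.{0} k G)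

/-- **Shapiro in degree 1 with coefficients** (surjectivity, exact on cochains). -/
theorem shapiro1_hom (hK : K.Smooth (𝓤.comap r)) (hN : IsSmooth 𝓤 N) [hfin : Module.Finite k N]
    (c : T1 (homCx (Rep.res r N) K)) (hc : c ∈ ZZ1 (𝓤.comap r) (homCx (Rep.res r N) K)) :
    ∃ z : T1 (homCx N (K.coInd r 𝓤)), z ∈ ZZ1 𝓤 (homCx N (K.coInd r 𝓤)) ∧
      (homCxPost (Rep.res r N) (evCx r 𝓤 K)).onT1 (resHomT1 r N (K.coInd r 𝓤) z) = c := by
  have hsm : (homCx (Rep.res r N) K).Smooth (𝓤.comap r) :=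
    homCx_smooth (𝓤.comap r) K hK (Rep.res r N) (coind_isSmooth_res r 𝓤 N hN) hfin
  obtain ⟨Z, hZ, hev⟩ := shapiro1_coInd r 𝓤 (homCx (Rep.res r N) K) hsm c hc
  refine ⟨(swapToCx r 𝓤 hN K).onT1 Z, CxHom.onT1_mem_ZZ1 _ 𝓤 hZ, ?_⟩
  rw [← hev]
  refine Prod.ext (funext fun d => LinearMap.ext fun n => ?_) (LinearMap.ext fun n => ?_)
  · show ((homCx (Rep.res r N) K).coIndFun0 r 𝓤 (Z.1 (r d)) 1 : N →ₗ[k] K.K0) (N.ρ 1 n) = _
    rw [map_one, Module.End.one_apply]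
    rfl
  · show ((homCx (Rep.res r N) K).coIndFun1 r 𝓤 Z.2 1 : N →ₗ[k] K.K1) (N.ρ 1 n) = _
    rw [map_one, Module.End.one_apply]
    rfl

/-- **Shapiro in degree 2 with coefficients** (injectivity, on cochains). -/
theorem shapiro2_hom (hK : K.Smooth (𝓤.comap r)) (hN : IsSmooth 𝓤 N) [hfin : Module.Finite k N]
    (z : T2 (homCx N (K.coInd r 𝓤))) (hz : z ∈ ZZ2 𝓤 (homCx N (K.coInd r 𝓤)))
    (h : (homCxPost (Rep.res r N) (evCx r 𝓤 K)).onT2 (resHomT2 r N (K.coInd r 𝓤) z)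
      ∈ BB2 (𝓤.comap r) (homCx (Rep.res r N) K)) :
    z ∈ BB2 𝓤 (homCx N (K.coInd r 𝓤)) := by
  have hsm : (homCx (Rep.res r N) K).Smooth (𝓤.comap r) :=
    homCx_smooth (𝓤.comap r) K hK (Rep.res r N) (coind_isSmooth_res r 𝓤 N hN) hfin
  have hZ := CxHom.onT2_mem_ZZ2 (swapFromCx r 𝓤 hN K) 𝓤 hz
  have hev : (evCx r 𝓤 (homCx (Rep.res r N) K)).onT2
      (resT2 r ((homCx (Rep.res r N) K).coInd r 𝓤) ((swapFromCx r 𝓤 hN K).onT2 z))
      = (homCxPost (Rep.res r N) (evCx r 𝓤 K)).onT2 (resHomT2 r N (K.coInd r 𝓤) z) := by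
    refine Prod.ext (funext fun p => LinearMap.ext fun n => ?_)
      (funext fun d => LinearMap.ext fun n => ?_)
    · show K.coIndFun0 r 𝓤 ((z.1 (r p.1, r p.2) : N →ₗ[k] (K.coInd r 𝓤).K0) (N.ρ 1⁻¹ n)) 1 = _
      rw [inv_one, map_one, Module.End.one_apply]
      rfl
    · show K.coIndFun1 r 𝓤 ((z.2 (r d) : N →ₗ[k] (K.coInd r 𝓤).K1) (N.ρ 1⁻¹ n)) 1 = _
      rw [inv_one, map_one, Module.End.one_apply]
      rfl
  rw [← hev] at h
  have hB := shapiro2_coInd r 𝓤 (homCx (Rep.res r N) K) hsm _ hZ h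
  have hB' := CxHom.onT2_mem_BB2 (swapToCx r 𝓤 hN K) 𝓤 hB
  have e : (swapToCx r 𝓤 hN K).onT2 ((swapFromCx r 𝓤 hN K).onT2 z) = z := by
    refine Prod.ext (funext fun p => ?_) (funext fun g => ?_)
    · exact swapTo_swapFrom r 𝓤 hN K.K0 (z.1 p)
    · exact swapTo_swapFrom r 𝓤 hN K.K1 (z.2 g)
  rwa [e] at hB'

end ShapiroHom

end Fermat.Agent.F4
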