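import Fermat.Agent.F4.Coind.Shapiro1

/-!
# F4 / Coind / Homotopy : the prism homotopy on homogeneous cochains (helper13, seat COIND)

`F : G³ → K⁰`, `B : G² → K¹` are the homogeneous forms of a smooth total 2-cocycle of `coInd K`
(`D`-equivariant, invariant modulo `U`), whose restriction to `D` is the coboundary of `(c₀, c₁)`.
With an equivariant section `π` and `ρ = r ∘ π` we put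
`Γ₀ g₀ g₁ = C(π g₀, π g₁) - F(g₀, ρ g₀, ρ g₁) + F(g₀, g₁, ρ g₁)`, `Γ₁ g₀ = π g₀ • c₁ + B(g₀, ρ g₀)`
and prove that `(Γ₀, Γ₁)` is equivariant, invariant modulo `U`, with coboundary `(F, B)`.
-/

set_option autoImplicit false

open CategoryTheory groupCohomology

namespace Fermat.Agent.F4

variable {k D G : Type} [CommRing k] [Group D] [Group G]

/-- The data of the prism homotopy. -/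
structure CoindPrism (r : D →* G) (U : Subgroup G) (K : Cx k D) where
  π : G → D
  hπ : IsCoindSection r U π
  F : G → G → G → K.K0
  B : G → G → K.K1
  c₀ : D → K.K0
  c₁ : K.K1
  F_eq : ∀ d g₀ g₁ g₂, F (r d * g₀) (r d * g₁) (r d * g₂) = K.K0.ρ d (F g₀ g₁ g₂)
  F_inv : ∀ g₀ g₁ g₂ s₀ s₁ s₂, s₀ ∈ U → s₁ ∈ U → s₂ ∈ U →
    F (g₀ * s₀) (g₁ * s₁) (g₂ * s₂) = F g₀ g₁ g₂
  F_coc : ∀ g₀ g₁ g₂ g₃, F g₁ g₂ g₃ - F g₀ g₂ g₃ + F g₀ g₁ g₃ - F g₀ g₁ g₂ = 0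
  B_eq : ∀ d g₀ g₁, B (r d * g₀) (r d * g₁) = K.K1.ρ d (B g₀ g₁)
  B_inv : ∀ g₀ g₁ s₀ s₁, s₀ ∈ U → s₁ ∈ U → B (g₀ * s₀) (g₁ * s₁) = B g₀ g₁
  dF : ∀ g₀ g₁ g₂, K.d (F g₀ g₁ g₂) = B g₁ g₂ - B g₀ g₂ + B g₀ g₁
  Fc : ∀ d₀ d₁ d₂, F (r d₀) (r d₁) (r d₂)
    = coindHom1 K.K0 c₀ d₁ d₂ - coindHom1 K.K0 c₀ d₀ d₂ + coindHom1 K.K0 c₀ d₀ d₁
  Bc : ∀ d₀ d₁, B (r d₀) (r d₁) = K.d (coindHom1 K.K0 c₀ d₀ d₁) - (K.K1.ρ d₁ c₁ - K.K1.ρ d₀ c₁)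
  c_inv : ∀ d s, r s ∈ U → c₀ (d * s) = c₀ d
  c_fix : ∀ d s, r s ∈ U → K.K0.ρ s (c₀ d) = c₀ d
  c₁_fix : ∀ s, r s ∈ U → K.K1.ρ s c₁ = c₁

namespace CoindPrism

variable {r : D →* G} {U : Subgroup G} {K : Cx k D} (P : CoindPrism r U K)

/-- `Γ₀ = π^* C - h^* F`. -/
def Γ₀ (g₀ g₁ : G) : K.K0 :=
  coindHom1 K.K0 P.c₀ (P.π g₀) (P.π g₁) - P.F g₀ (r (P.π g₀)) (r (P.π g₁)) + P.F g₀ g₁ (r (P.π g₁))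

/-- `Γ₁ = π^* c₁ + h^* B`. -/
def Γ₁ (g₀ : G) : K.K1 := K.K1.ρ (P.π g₀) P.c₁ + P.B g₀ (r (P.π g₀))

lemma F_inv₁ (g₀ g₁ g₂ : G) {s₁ : G} (h₁ : s₁ ∈ U) : P.F g₀ (g₁ * s₁) g₂ = P.F g₀ g₁ g₂ := by
  have := P.F_inv g₀ g₁ g₂ 1 s₁ 1 U.one_mem h₁ U.one_mem
  rwa [mul_one, mul_one] at this

lemma F_inv₂ (g₀ g₁ g₂ : G) {s₂ : G} (h₂ : s₂ ∈ U) : P.F g₀ g₁ (g₂ * s₂) = P.F g₀ g₁ g₂ := by
  have := P.F_inv g₀ g₁ g₂ 1 1 s₂ U.one_mem U.one_mem h₂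
  rwa [mul_one, mul_one] at this

lemma F_inv₁₂ (g₀ g₁ g₂ : G) {s₁ s₂ : G} (h₁ : s₁ ∈ U) (h₂ : s₂ ∈ U) :
    P.F g₀ (g₁ * s₁) (g₂ * s₂) = P.F g₀ g₁ g₂ := by
  have := P.F_inv g₀ g₁ g₂ 1 s₁ s₂ U.one_mem h₁ h₂
  rwa [mul_one] at this

lemma B_inv₁ (g₀ g₁ : G) {s₁ : G} (h₁ : s₁ ∈ U) : P.B g₀ (g₁ * s₁) = P.B g₀ g₁ := by
  have := P.B_inv g₀ g₁ 1 s₁ U.one_mem h₁
  rwa [mul_one] at this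

variable [hU : U.Normal]

lemma Γ₀_eq (d : D) (g₀ g₁ : G) : P.Γ₀ (r d * g₀) (r d * g₁) = K.K0.ρ d (P.Γ₀ g₀ g₁) := by
  obtain ⟨v, hv, e⟩ := P.hπ.spec_left d g₀
  obtain ⟨v', hv', e'⟩ := P.hπ.spec_left d g₁
  unfold Γ₀
  rw [e, e', coindHom1_mul_right P.c₀ P.c_inv P.c_fix _ _ hv hv', coindHom1_smul]
  simp only [map_mul, map_sub, map_add]
  rw [P.F_inv₁₂ _ _ _ hv hv', P.F_eq, P.F_inv₂ _ _ _ hv', P.F_eq]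

lemma Γ₀_inv (g₀ g₁ : G) {s₀ s₁ : G} (h₀ : s₀ ∈ U) (h₁ : s₁ ∈ U) :
    P.Γ₀ (g₀ * s₀) (g₁ * s₁) = P.Γ₀ g₀ g₁ := by
  obtain ⟨v, hv, e⟩ := P.hπ.spec_right g₀ h₀
  obtain ⟨v', hv', e'⟩ := P.hπ.spec_right g₁ h₁
  unfold Γ₀
  rw [e, e', coindHom1_mul_right P.c₀ P.c_inv P.c_fix _ _ hv hv']
  simp only [map_mul]
  rw [P.F_inv g₀ (r (P.π g₀)) (r (P.π g₁)) s₀ (r v) (r v') h₀ hv hv',
    P.F_inv g₀ g₁ (r (P.π g₁)) s₀ s₁ (r v') h₀ h₁ hv']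

omit hU in
lemma Γ₁_eq (d : D) (g₀ : G) : P.Γ₁ (r d * g₀) = K.K1.ρ d (P.Γ₁ g₀) := by
  obtain ⟨v, hv, e⟩ := P.hπ.spec_left d g₀
  unfold Γ₁
  rw [e]
  simp only [map_mul, map_add, Module.End.mul_apply]
  rw [P.c₁_fix v hv, P.B_inv₁ _ _ hv, P.B_eq]

omit hU in
lemma Γ₁_inv (g₀ : G) {s₀ : G} (h₀ : s₀ ∈ U) : P.Γ₁ (g₀ * s₀) = P.Γ₁ g₀ := by
  obtain ⟨v, hv, e⟩ := P.hπ.spec_right g₀ h₀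
  unfold Γ₁
  rw [e]
  simp only [map_mul, Module.End.mul_apply]
  rw [P.c₁_fix v hv, P.B_inv g₀ (r (P.π g₀)) s₀ (r v) h₀ hv]

omit hU in
/-- The coboundary of `Γ₀` is `F`. -/
lemma cob0 (g₀ g₁ g₂ : G) : P.Γ₀ g₁ g₂ - P.Γ₀ g₀ g₂ + P.Γ₀ g₀ g₁ = P.F g₀ g₁ g₂ := by
  unfold Γ₀
  have hc := P.Fc (P.π g₀) (P.π g₁) (P.π g₂)
  have e1 := P.F_coc g₀ g₁ g₂ (r (P.π g₂))
  have e2 := P.F_coc g₀ g₁ (r (P.π g₁)) (r (P.π g₂))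
  have e3 := P.F_coc g₀ (r (P.π g₀)) (r (P.π g₁)) (r (P.π g₂))
  generalize coindHom1 K.K0 P.c₀ (P.π g₁) (P.π g₂) = C12 at hc ⊢
  generalize coindHom1 K.K0 P.c₀ (P.π g₀) (P.π g₂) = C02 at hc ⊢
  generalize coindHom1 K.K0 P.c₀ (P.π g₀) (P.π g₁) = C01 at hc ⊢
  rw [sub_eq_zero] at e1 e2 e3
  have hc' : C12 - C02 + C01 = P.F (r (P.π g₀)) (r (P.π g₁)) (r (P.π g₂)) := hc.symm
  rw [← e1]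
  have e3' : P.F (r (P.π g₀)) (r (P.π g₁)) (r (P.π g₂))
      = P.F g₀ (r (P.π g₀)) (r (P.π g₁)) + P.F g₀ (r (P.π g₁)) (r (P.π g₂))
        - P.F g₀ (r (P.π g₀)) (r (P.π g₂)) := by
    rw [← e3]; abel
  have e2' : P.F g₀ (r (P.π g₁)) (r (P.π g₂))
      = P.F g₁ (r (P.π g₁)) (r (P.π g₂)) + P.F g₀ g₁ (r (P.π g₂))
        - P.F g₀ g₁ (r (P.π g₁)) := by
    rw [← e2]; abel
  rw [e2'] at e3'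
  rw [e3'] at hc'
  have : C12 = P.F g₀ (r (P.π g₀)) (r (P.π g₁)) + (P.F g₁ (r (P.π g₁)) (r (P.π g₂))
      + P.F g₀ g₁ (r (P.π g₂)) - P.F g₀ g₁ (r (P.π g₁))) - P.F g₀ (r (P.π g₀)) (r (P.π g₂))
      + C02 - C01 := by
    rw [← hc']; abel
  rw [this]
  abel

omit hU in
/-- The second component of the coboundary of `(Γ₀, Γ₁)` is `B`. -/
lemma cob1 (g₀ g₁ : G) : K.d (P.Γ₀ g₀ g₁) - (P.Γ₁ g₁ - P.Γ₁ g₀) = P.B g₀ g₁ := by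
  unfold Γ₀ Γ₁
  rw [map_add, map_sub, P.dF, P.dF]
  have hb := P.Bc (P.π g₀) (P.π g₁)
  rw [eq_sub_iff_add_eq] at hb
  rw [← hb]
  abel

end CoindPrism

end Fermat.Agent.F4
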