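import Fermat.Agent.F4.Coind.Homotopy

/-!
# F4 / Coind / Shapiro2 : Shapiro's lemma in degree 2 on smooth cochains (helper13, seat COIND)

A smooth total 2-cocycle of `coInd K` whose evaluation (restriction to `D`, then `φ ↦ φ 1`) is a
smooth coboundary of `K` is a smooth coboundary of `coInd K`.
-/

set_option autoImplicit false

open CategoryTheory groupCohomology

namespace Fermat.Agent.F4

variable {k D G : Type} [CommRing k] [Group D] [Group G]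

section Shapiro2

variable (r : D →* G) (𝓤 : Levels G) (K : Cx k D)

lemma Cx.coIndFun0_equivariant (φ : (K.coInd r 𝓤).K0) (d : D) (x : G) :
    K.coIndFun0 r 𝓤 φ (r d * x) = K.K0.ρ d (K.coIndFun0 r 𝓤 φ x) :=
  coIndSub_equivariant (show ↥(coIndSub r 𝓤 K.K0) from φ) d x

lemma Cx.coIndFun1_equivariant (φ : (K.coInd r 𝓤).K1) (d : D) (x : G) :
    K.coIndFun1 r 𝓤 φ (r d * x) = K.K1.ρ d (K.coIndFun1 r 𝓤 φ x) :=
  coIndSub_equivariant (show ↥(coIndSub r 𝓤 K.K1) from φ) d x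

lemma Cx.coIndFun0_equivariant_one (φ : (K.coInd r 𝓤).K0) (d : D) :
    K.coIndFun0 r 𝓤 φ (r d) = K.K0.ρ d (K.coIndFun0 r 𝓤 φ 1) := by
  have := K.coIndFun0_equivariant r 𝓤 φ d 1
  rwa [mul_one] at this

lemma Cx.coIndFun1_equivariant_one (φ : (K.coInd r 𝓤).K1) (d : D) :
    K.coIndFun1 r 𝓤 φ (r d) = K.K1.ρ d (K.coIndFun1 r 𝓤 φ 1) := by
  have := K.coIndFun1_equivariant r 𝓤 φ d 1
  rwa [mul_one] at this

/-- A uniform level for a smooth 2-cochain with values in `(coInd K)⁰`. -/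
lemma exists_level_coInd₂ (A : Rep.{0} k D) {α : G × G → ↥(coIndSub r 𝓤 A)}
    (hα : IsLC₂ 𝓤 α) :
    ∃ U ∈ 𝓤.sets, (∀ g g' s s', s ∈ U → s' ∈ U → α (g * s, g' * s') = α (g, g')) ∧
      ∀ p x s, s ∈ U → (α p : G → A) (x * s) = (α p : G → A) x := by
  obtain ⟨U, hU, h1, h2⟩ := IsLC₂.coind_exists_uniform (A := coInd r 𝓤 A) (coInd_smooth A) hα
  refine ⟨U, hU, h1, fun p x s hs => ?_⟩
  have := h2 p s hs
  exact congrFun (congrArg Subtype.val this) x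

/-- A uniform level for a smooth 1-cochain with values in `(coInd K)¹`. -/
lemma exists_level_coInd₁ (A : Rep.{0} k D) {β : G → ↥(coIndSub r 𝓤 A)}
    (hβ : IsLC₁ 𝓤 β) :
    ∃ U ∈ 𝓤.sets, (∀ g s, s ∈ U → β (g * s) = β g) ∧
      ∀ g x s, s ∈ U → (β g : G → A) (x * s) = (β g : G → A) x := by
  obtain ⟨U, hU, h1, h2⟩ := IsLC₁.coind_exists_uniform (A := coInd r 𝓤 A) (coInd_smooth A) hβ
  refine ⟨U, hU, h1, fun g x s hs => ?_⟩
  have := h2 g s hs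
  exact congrFun (congrArg Subtype.val this) x

/-- **Shapiro's lemma in degree 2** (injectivity, on cochains). -/
theorem shapiro2_coInd (hK : K.Smooth (𝓤.comap r)) (Z : T2 (K.coInd r 𝓤))
    (hZ : Z ∈ ZZ2 𝓤 (K.coInd r 𝓤))
    (h : (evCx r 𝓤 K).onT2 (resT2 r (K.coInd r 𝓤) Z) ∈ BB2 (𝓤.comap r) K) :
    Z ∈ BB2 𝓤 (K.coInd r 𝓤) := by
  obtain ⟨α, β⟩ := Z
  obtain ⟨hz1, hz2, hz3, hz4⟩ := (mem_ZZ2_iff 𝓤 _ (α, β)).1 hZ
  obtain ⟨⟨c₀, c₁⟩, hc, hD⟩ := (mem_BB2_iff _ K _).1 h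
  simp only at hz1 hz2 hz3 hz4 hc
  -- function forms
  set αf : G × G → G → K.K0 := fun p x => K.coIndFun0 r 𝓤 (α p) x with hαf
  set βf : G → G → K.K1 := fun g x => K.coIndFun1 r 𝓤 (β g) x with hβf
  -- levels
  obtain ⟨U₁, hU₁, hα1, hα2⟩ := exists_level_coInd₂ r 𝓤 K.K0 (α := α) hz3
  obtain ⟨U₂, hU₂, hβ1, hβ2⟩ := exists_level_coInd₁ r 𝓤 K.K1 (β := β) hz4
  obtain ⟨U₃, hU₃, hc1, hc2, hc3⟩ := coind_exists_level_T1 r 𝓤 K hK hc c₁
  obtain ⟨W, hW, hWle⟩ := 𝓤.directed U₁ hU₁ U₂ hU₂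
  obtain ⟨U, hU, hUle⟩ := 𝓤.directed W hW U₃ hU₃
  have hUn : U.Normal := 𝓤.normal U hU
  have hUU₁ : U ≤ U₁ := fun s hs => (hWle (hUle hs).1).1
  have hUU₂ : U ≤ U₂ := fun s hs => (hWle (hUle hs).1).2
  have hUU₃ : U ≤ U₃ := fun s hs => (hUle hs).2
  obtain ⟨π, hπ⟩ := exists_isCoindSection r U
  -- invariance of the function forms
  have hαinv : ∀ g g' x s s' s'', s ∈ U → s' ∈ U → s'' ∈ U →
      αf (g * s, g' * s') (x * s'') = αf (g, g') x := by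
    intro g g' x s s' s'' hs hs' hs''
    show K.coIndFun0 r 𝓤 (α (g * s, g' * s')) (x * s'') = K.coIndFun0 r 𝓤 (α (g, g')) x
    rw [hα1 g g' s s' (hUU₁ hs) (hUU₁ hs')]
    exact hα2 (g, g') x s'' (hUU₁ hs'')
  have hβinv : ∀ g x s s'', s ∈ U → s'' ∈ U → βf (g * s) (x * s'') = βf g x := by
    intro g x s s'' hs hs''
    show K.coIndFun1 r 𝓤 (β (g * s)) (x * s'') = K.coIndFun1 r 𝓤 (β g) x
    rw [hβ1 g s (hUU₂ hs)]
    exact hβ2 g x s'' (hUU₂ hs'')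
  -- the cocycle relations, evaluated
  have hcoc : ∀ g h j x, αf (h, j) (x * g) - αf (g * h, j) x + αf (g, h * j) x - αf (g, h) x = 0 := by
    intro g h j x
    have := congrFun hz1 (g, h, j)
    simp only [δ2_apply, Pi.zero_apply] at this
    exact congrFun (congrArg Subtype.val this) x
  have hdα : ∀ g h x, K.d (αf (g, h) x) = βf h (x * g) - βf (g * h) x + βf g x := by
    intro g h x
    have := congrFun hz2 (g, h)
    simp only [δ1_apply, Cx.dco_apply] at this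
    exact congrFun (congrArg Subtype.val this) x
  -- the hypothesis, evaluated
  have hD0 : ∀ d e : D, αf (r d, r e) 1 = K.K0.ρ d (c₀ e) - c₀ (d * e) + c₀ d := by
    intro d e
    have := congrFun (congrArg Prod.fst hD) (d, e)
    simp only [D1_apply, δ1_apply] at this
    exact this.symm
  have hD1 : ∀ d : D, βf (r d) 1 = K.d (c₀ d) - (K.K1.ρ d c₁ - c₁) := by
    intro d
    have := congrFun (congrArg Prod.snd hD) d
    simp only [D1_apply, Pi.sub_apply, Cx.dco_apply, δ0_apply] at this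
    exact this.symm
  -- the prism data
  let P : CoindPrism r U K :=
    { π := π
      hπ := hπ
      F := fun g₀ g₁ g₂ => αf (g₀⁻¹ * g₁, g₁⁻¹ * g₂) g₀
      B := fun g₀ g₁ => βf (g₀⁻¹ * g₁) g₀
      c₀ := c₀
      c₁ := c₁
      F_eq := by
        intro d g₀ g₁ g₂
        have e1 : (r d * g₀)⁻¹ * (r d * g₁) = g₀⁻¹ * g₁ := by group
        have e2 : (r d * g₁)⁻¹ * (r d * g₂) = g₁⁻¹ * g₂ := by group
        show αf ((r d * g₀)⁻¹ * (r d * g₁), (r d * g₁)⁻¹ * (r d * g₂)) (r d * g₀) = _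
        rw [e1, e2]
        exact K.coIndFun0_equivariant r 𝓤 _ d g₀
      F_inv := by
        intro g₀ g₁ g₂ s₀ s₁ s₂ h₀ h₁ h₂
        have e1 : (g₀ * s₀)⁻¹ * (g₁ * s₁)
            = g₀⁻¹ * g₁ * ((g₀⁻¹ * g₁)⁻¹ * s₀⁻¹ * (g₀⁻¹ * g₁) * s₁) := by group
        have e2 : (g₁ * s₁)⁻¹ * (g₂ * s₂)
            = g₁⁻¹ * g₂ * ((g₁⁻¹ * g₂)⁻¹ * s₁⁻¹ * (g₁⁻¹ * g₂) * s₂) := by group
        show αf ((g₀ * s₀)⁻¹ * (g₁ * s₁), (g₁ * s₁)⁻¹ * (g₂ * s₂)) (g₀ * s₀) = _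
        rw [e1, e2]
        refine hαinv _ _ _ _ _ _ ?_ ?_ h₀
        · exact U.mul_mem (𝓤.coind_conj_mem' hU (U.inv_mem h₀) _) h₁
        · exact U.mul_mem (𝓤.coind_conj_mem' hU (U.inv_mem h₁) _) h₂
      F_coc := by
        intro g₀ g₁ g₂ g₃
        have := hcoc (g₀⁻¹ * g₁) (g₁⁻¹ * g₂) (g₂⁻¹ * g₃) g₀
        have e1 : g₀ * (g₀⁻¹ * g₁) = g₁ := by group
        have e2 : g₀⁻¹ * g₁ * (g₁⁻¹ * g₂) = g₀⁻¹ * g₂ := by group
        have e3 : g₁⁻¹ * g₂ * (g₂⁻¹ * g₃) = g₁⁻¹ * g₃ := by group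
        rw [e1, e2, e3] at this
        exact this
      B_eq := by
        intro d g₀ g₁
        have e1 : (r d * g₀)⁻¹ * (r d * g₁) = g₀⁻¹ * g₁ := by group
        show βf ((r d * g₀)⁻¹ * (r d * g₁)) (r d * g₀) = _
        rw [e1]
        exact K.coIndFun1_equivariant r 𝓤 _ d g₀
      B_inv := by
        intro g₀ g₁ s₀ s₁ h₀ h₁
        have e1 : (g₀ * s₀)⁻¹ * (g₁ * s₁)
            = g₀⁻¹ * g₁ * ((g₀⁻¹ * g₁)⁻¹ * s₀⁻¹ * (g₀⁻¹ * g₁) * s₁) := by group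
        show βf ((g₀ * s₀)⁻¹ * (g₁ * s₁)) (g₀ * s₀) = _
        rw [e1]
        exact hβinv _ _ _ _ (U.mul_mem (𝓤.coind_conj_mem' hU (U.inv_mem h₀) _) h₁) h₀
      dF := by
        intro g₀ g₁ g₂
        have := hdα (g₀⁻¹ * g₁) (g₁⁻¹ * g₂) g₀
        have e1 : g₀ * (g₀⁻¹ * g₁) = g₁ := by group
        have e2 : g₀⁻¹ * g₁ * (g₁⁻¹ * g₂) = g₀⁻¹ * g₂ := by group
        rw [e1, e2] at this
        exact this
      Fc := by
        intro d₀ d₁ d₂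
        have e1 : (r d₀)⁻¹ * r d₁ = r (d₀⁻¹ * d₁) := by rw [map_mul, map_inv]
        have e2 : (r d₁)⁻¹ * r d₂ = r (d₁⁻¹ * d₂) := by rw [map_mul, map_inv]
        show αf ((r d₀)⁻¹ * r d₁, (r d₁)⁻¹ * r d₂) (r d₀) = _
        rw [e1, e2]
        have h1 := K.coIndFun0_equivariant_one r 𝓤 (α (r (d₀⁻¹ * d₁), r (d₁⁻¹ * d₂))) d₀
        have h2 := hD0 (d₀⁻¹ * d₁) (d₁⁻¹ * d₂)
        show K.coIndFun0 r 𝓤 (α (r (d₀⁻¹ * d₁), r (d₁⁻¹ * d₂))) (r d₀) = _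
        rw [h1]
        change K.K0.ρ d₀ (αf (r (d₀⁻¹ * d₁), r (d₁⁻¹ * d₂)) 1) = _
        rw [h2]
        unfold coindHom1
        have e3 : d₀⁻¹ * d₁ * (d₁⁻¹ * d₂) = d₀⁻¹ * d₂ := by group
        have e4 : d₀ * (d₀⁻¹ * d₁) = d₁ := by group
        rw [e3, map_add, map_sub, ← Module.End.mul_apply, ← map_mul, e4]
      Bc := by
        intro d₀ d₁
        have e1 : (r d₀)⁻¹ * r d₁ = r (d₀⁻¹ * d₁) := by rw [map_mul, map_inv]
        show βf ((r d₀)⁻¹ * r d₁) (r d₀) = _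
        rw [e1]
        have h1 := K.coIndFun1_equivariant_one r 𝓤 (β (r (d₀⁻¹ * d₁))) d₀
        have h2 := hD1 (d₀⁻¹ * d₁)
        show K.coIndFun1 r 𝓤 (β (r (d₀⁻¹ * d₁))) (r d₀) = _
        rw [h1]
        change K.K1.ρ d₀ (βf (r (d₀⁻¹ * d₁)) 1) = _
        rw [h2]
        unfold coindHom1
        have e4 : d₀ * (d₀⁻¹ * d₁) = d₁ := by group
        rw [map_sub, map_sub, ← Module.End.mul_apply, ← map_mul, e4, K.comm]
      c_inv := fun d s hs => hc1 d s (hUU₃ hs)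
      c_fix := fun d s hs => hc2 d s (hUU₃ hs)
      c₁_fix := fun s hs => hc3 s (hUU₃ hs) }
  -- the cochain
  have hγ₀ : ∀ g : G, (fun x => P.Γ₀ x (x * g)) ∈ coIndSub r 𝓤 K.K0 := by
    intro g
    refine ⟨fun d x => ?_, U, hU, fun x s hs => ?_⟩
    · show P.Γ₀ (r d * x) (r d * x * g) = _
      rw [mul_assoc, P.Γ₀_eq]
    · show P.Γ₀ (x * s) (x * s * g) = P.Γ₀ x (x * g)
      have e : x * s * g = x * g * (g⁻¹ * s * g) := by group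
      rw [e]
      exact P.Γ₀_inv _ _ hs (𝓤.coind_conj_mem' hU hs g)
  have hγ₁ : P.Γ₁ ∈ coIndSub r 𝓤 K.K1 :=
    ⟨fun d x => P.Γ₁_eq d x, U, hU, fun x s hs => P.Γ₁_inv x hs⟩
  let γ₀ : G → ↥(coIndSub r 𝓤 K.K0) := fun g => ⟨_, hγ₀ g⟩
  let γ₁ : ↥(coIndSub r 𝓤 K.K1) := ⟨_, hγ₁⟩
  refine (mem_BB2_iff 𝓤 _ _).2 ⟨(γ₀, γ₁), ?_, ?_⟩
  · refine ⟨U, hU, fun g s hs => Subtype.ext (funext fun x => ?_)⟩
    show P.Γ₀ x (x * (g * s)) = P.Γ₀ x (x * g)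
    rw [← mul_assoc]
    have := P.Γ₀_inv x (x * g) U.one_mem hs
    rwa [mul_one] at this
  · refine Prod.ext (funext fun p => Subtype.ext (funext fun x => ?_))
      (funext fun g => Subtype.ext (funext fun x => ?_))
    · show P.Γ₀ (x * p.1) (x * p.1 * p.2) - P.Γ₀ x (x * (p.1 * p.2)) + P.Γ₀ x (x * p.1)
        = K.coIndFun0 r 𝓤 (α p) x
      rw [← mul_assoc, P.cob0]
      show αf (x⁻¹ * (x * p.1), (x * p.1)⁻¹ * (x * p.1 * p.2)) x = αf p x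
      have e1 : x⁻¹ * (x * p.1) = p.1 := by group
      have e2 : (x * p.1)⁻¹ * (x * p.1 * p.2) = p.2 := by group
      rw [e1, e2]
    · show K.d (P.Γ₀ x (x * g)) - (P.Γ₁ (x * g) - P.Γ₁ x) = K.coIndFun1 r 𝓤 (β g) x
      rw [P.cob1]
      show βf (x⁻¹ * (x * g)) x = βf g x
      have e1 : x⁻¹ * (x * g) = g := by group
      rw [e1]

end Shapiro2

end Fermat.Agent.F4
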